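import Mathlib
import Fermat.Agent.LT.T7.B981.H503.StepSSpec

/-!
# Row LT, tower T7, leaf SS.3 `SS503.TrSuppC503` (cut of helper503 of `B981.StepSC981`, registry
# row 2871): PROVED (helper387)

OFF-MAIN.  `trSuppC387 K : SS503.TrSuppC503 K` VERBATIM, UNCONDITIONAL, every number field.
The compact set is `C · z^{-t}`.  Only the multiplicativity of the components
(`H942.finComp_mul942`, `T5.H942.agreeOutside_mul942`, files of the closure of the Spec) and the
triviality of `z` at the places of the orbit are used.
-/

set_option autoImplicit false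

open AutomorphicForm IsDedekindDomain NumberField MeasureTheory

noncomputable section

namespace Fermat.Agent.LT.T7.H387S

open Fermat.Agent.LT.H556 Fermat.Agent.LT.H556.A0 Fermat.Agent.LT.T7
open Fermat.Agent.LT.T7.B981

variable {K : Type} [Field K] [NumberField K]

/-- The elements with trivial component at the finite place `w`. -/
def trivSub387 (w : HeightOneSpectrum (𝓞 K)) : Subgroup (G K) where
  carrier := {g | finComp w g = 1}
  one_mem' := H942.finComp_one942 w
  mul_mem' := by
    intro a b ha hb
    show finComp w (a * b) = 1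
    have ha' : finComp w a = 1 := ha
    have hb' : finComp w b = 1 := hb
    rw [H942.finComp_mul942, ha', hb', one_mul]
  inv_mem' := by
    intro a ha
    show finComp w a⁻¹ = 1
    have ha' : finComp w a = 1 := ha
    have := H942.finComp_inv_mul942 w a
    rwa [ha', mul_one] at this

theorem finComp_eq_one_of_triv387 (w : HeightOneSpectrum (𝓞 K)) (g : G K)
    (h : TrivAtFin w g) : finComp w g = 1 := h

/-- A power of an element which is trivial at `w` is trivial at `w`. -/
theorem finComp_zpow_eq_one387 (w : HeightOneSpectrum (𝓞 K)) (z : G K)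
    (h : TrivAtFin w z) (t : ℤ) : finComp w (z ^ t) = 1 :=
  (trivSub387 w).zpow_mem (finComp_eq_one_of_triv387 w z h) t

/-- Right multiplication by an element which is trivial at `w` does not change the Iwahori
condition at `w`. -/
theorem inIwahori_of_mul387 (w : HeightOneSpectrum (𝓞 K)) (y u : G K)
    (hu : finComp w u = 1) (h : T5.InIwahori w (y * u)) : T5.InIwahori w y := by
  have h1 : finComp w (y * u) = finComp w y := by
    rw [H942.finComp_mul942, hu, mul_one]
  have hu' : finComp w u⁻¹ = 1 := (trivSub387 w).inv_mem hu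
  have h2 : finComp w (y * u)⁻¹ = finComp w y⁻¹ := by
    rw [mul_inv_rev, H942.finComp_mul942, hu', one_mul]
  obtain ⟨a, b, c⟩ := h
  refine ⟨?_, ?_, ?_⟩
  · intro i j
    have := a i j
    rwa [h1] at this
  · intro i j
    have := b i j
    rwa [h2] at this
  · rwa [h1] at c

/-- **LEAF SS.3 = TR-SUPP**, VERBATIM. -/
theorem trSuppC387 (K : Type) [Field K] [NumberField K] : SS503.TrSuppC503 K := by
  intro l o v z hz ho t φ hC
  obtain ⟨C, hCc, hsupp⟩ := hC
  refine ⟨(fun h : G K => h * (z ^ t)⁻¹) '' C,
    hCc.image (continuous_id.mul continuous_const), ?_⟩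
  intro y hy
  have hy' : φ (y * z ^ t) ≠ 0 := hy
  obtain ⟨hiw, h, hhC, hag⟩ := hsupp (y * z ^ t) hy'
  refine ⟨fun j hj => ?_, h * (z ^ t)⁻¹, ⟨h, hhC, rfl⟩, ?_⟩
  · have htriv : TrivAtFin (o j) z := hz.1.2 (o j) (ho j hj)
    exact inIwahori_of_mul387 (o j) y (z ^ t) (finComp_zpow_eq_one387 (o j) z htriv t)
      (hiw j hj)
  · have := T5.H942.agreeOutside_mul942 _ hag
      (T5.H942.agreeOutside_refl942 {v | ∃ j < l, v = o j} (z ^ t)⁻¹)
    rwa [mul_inv_cancel_right] at this

end Fermat.Agent.LT.T7.H387S

end
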