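import Mathlib
import Fermat.Agent.LT.T7.H193.ProjSpec

/-!
# Row LT, tower T7, node T7.L2.1, leaf PROJ.4 `H193.FinAvgOrthC` (registry 2141) -- PROVED (helper387)

OFF-MAIN.  `finAvgOrthC387 K : H193.FinAvgOrthC K` for every number field `K`:
`ψ - P_f ψ` is orthogonal to the cusp functions of level `𝔑₀` which are Iwahori-invariant along
the orbit.  Proof: `χ (x h) = χ x` for `h ∈ Rep` (`IsFinData.mem`), so
`∫_F ψ(x h) conj χ(x) = ∫_F (ψ conj χ)(x h) = ∫_F ψ conj χ` by `TranslInvC`; bounded continuous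
integrands on a set of finite measure.  Complete proof; hypotheses = those of the Prop.
-/

set_option autoImplicit false

open IsDedekindDomain NumberField MeasureTheory
open scoped ComplexConjugate

noncomputable section

namespace Fermat.Agent.LT.T7.H193.H387

open Fermat.Agent.LT.H556 Fermat.Agent.LT.H556.A0 Fermat.Agent.LT Fermat.Agent.LT.T7
open Fermat.Agent.LT.T7.H193

attribute [local instance] Fermat.Agent.LT.T5.instMeasurableSpaceG

variable {K : Type} [Field K] [NumberField K]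

/-- `χ` is invariant under right translation by the members of `Rep`. -/
lemma chi_rep_inv387 {𝔑 𝔑₀ : Ideal (𝓞 K)} {l : ℕ} {o : ℕ → HeightOneSpectrum (𝓞 K)}
    {Rep : Finset (G K)} (hRep : IsFinData 𝔑 𝔑₀ l o Rep) {r : G K} {χ : G K → ℂ}
    (hχ : T5.IsCuspFn 𝔑₀ T5.trivType r χ) (hiw : IsIwInv l o χ) {h : G K} (hh : h ∈ Rep)
    (x : G K) : χ (x * h) = χ x := by
  obtain ⟨i, u, hi, hu, rfl⟩ := hRep.mem h hh
  rw [← mul_assoc, hχ.aut.level_inv u hu, (isIwInv_iff.mp hiw) i hi]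

variable (K)

/-- **LEAF PROJ.4 = FIN-AVG-ORTH, PROVED.** -/
theorem finAvgOrthC387 : FinAvgOrthC K := by
  intro hT1 hTr R hR 𝔑 𝔑₀ l o Rep hRep ψ hψ χ hχ hiw
  have hF : R.μ R.F < ⊤ := hR.frame.finite
  have key : ∀ h ∈ Rep, ∫ x in R.F, ψ (x * h) * conj (χ x) ∂(R.μ)
      = ∫ x in R.F, ψ x * conj (χ x) ∂(R.μ) := by
    intro h hh
    have h1 := hTr hT1.adNorm R hR (fun x => ψ x * conj (χ x))
      (fun γ x => by
        show ψ (T5.ratG γ * x) * conj (χ (T5.ratG γ * x)) = ψ x * conj (χ x)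
        rw [hψ.aut.left_inv, hχ.aut.left_inv])
      (fun x => by
        show ψ (x * R.r) * conj (χ (x * R.r)) = ψ x * conj (χ x)
        rw [hψ.aut.ray, hχ.aut.ray]) h
    rw [← h1]
    refine integral_congr_ae (Filter.Eventually.of_forall fun x => ?_)
    show ψ (x * h) * conj (χ x) = ψ (x * h) * conj (χ (x * h))
    rw [chi_rep_inv387 hRep hχ hiw hh x]
  have hcard : ((Rep.card : ℂ)) ≠ 0 := by
    exact_mod_cast (Finset.card_pos.mpr hRep.nonempty).ne'
  have hint0 : IntegrableOn (fun x => ψ x * conj (χ x)) R.F R.μ :=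
    integrableOn_mul_conj193 hF hψ.cont hχ.cont hψ.bdd hχ.bdd
  have hinth : ∀ h ∈ Rep, IntegrableOn (fun x => ψ (x * h) * conj (χ x)) R.F R.μ := by
    intro h _
    refine integrableOn_mul_conj193 hF (e := fun x => ψ (x * h))
      (hψ.cont.comp (continuous_mul_const h)) hχ.cont ?_ hχ.bdd
    obtain ⟨C, hC⟩ := hψ.bdd
    exact ⟨C, fun g => hC _⟩
  have hsum : IntegrableOn (fun x => (Rep.card : ℂ)⁻¹ * ∑ h ∈ Rep, ψ (x * h) * conj (χ x))
      R.F R.μ :=
    (integrable_finsetSum Rep hinth).const_mul _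
  have e : (fun x => (ψ x - finAvg Rep ψ x) * conj (χ x))
      = fun x => ψ x * conj (χ x)
          - (Rep.card : ℂ)⁻¹ * ∑ h ∈ Rep, ψ (x * h) * conj (χ x) := by
    funext x
    unfold finAvg
    rw [sub_mul, mul_assoc, Finset.sum_mul]
  unfold T5.innerD
  rw [e, integral_sub hint0 hsum, integral_const_mul, integral_finsetSum Rep hinth,
    Finset.sum_congr rfl key, Finset.sum_const, nsmul_eq_mul, ← mul_assoc,
    inv_mul_cancel₀ hcard, one_mul, sub_self]

/-- The frozen Prop, VERBATIM. -/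
example : Fermat.Agent.LT.T7.H193.FinAvgOrthC K := finAvgOrthC387 K

end Fermat.Agent.LT.T7.H193.H387

end
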